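import Fermat.Agent.S05.H65.Sym

/-!
# Sum / product / duplication formulas in the shifted coordinate `ξ = 4x - s`

For a Weierstrass curve whose 2-division polynomial satisfies
`16 (4x³ + b₂x² + 2b₄x + b₆) = (ξ² - d²)(ξ + b)` with `ξ = 4x - s`.
-/

set_option autoImplicit false
set_option linter.unusedSectionVars false

namespace S05H75

open WeierstrassCurve S05H65

variable {K : Type*} [Field K] [DecidableEq K] [CharZero K] {W : WeierstrassCurve.Affine K}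

/-- The shifted and scaled x-coordinate `ξ = 4x - s`. -/
def xi (s : K) (P : W.Point) : K := 4 * px P - s

variable {s d b : K}

omit [CharZero K] in
lemma xi_neg (P : W.Point) : xi s (-P) = xi s P := by simp [xi]

omit [CharZero K] in
/-- `16 ψ₂²(x) = (ξ² - d²)(ξ + b)`. -/
lemma sixteen_psi2sq (hb₂ : W.b₂ = b - 3 * s) (hb₄ : 8 * W.b₄ = 3 * s ^ 2 - 2 * s * b - d ^ 2)
    (hb₆ : 16 * W.b₆ = (s ^ 2 - d ^ 2) * (b - s)) (P : W.Point) :
    16 * psi2sq W (px P) = (xi s P ^ 2 - d ^ 2) * (xi s P + b) := by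
  simp only [psi2sq, xi]
  linear_combination hb₆ + (4 * px P) * hb₄ + (16 * px P ^ 2) * hb₂

omit [CharZero K] in
theorem xi_sum (hb₂ : W.b₂ = b - 3 * s) (hb₄ : 8 * W.b₄ = 3 * s ^ 2 - 2 * s * b - d ^ 2)
    (hb₆ : 16 * W.b₆ = (s ^ 2 - d ^ 2) * (b - s)) {P Q : W.Point}
    (hP : P ≠ 0) (hQ : Q ≠ 0) (h : px P ≠ px Q) :
    (xi s (P + Q) + xi s (P - Q)) * (xi s P - xi s Q) ^ 2 =
      2 * (xi s P * xi s Q - d ^ 2) * (xi s P + xi s Q + 2 * b) := by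
  have h0 := px_add_add_px_sub hP hQ h
  simp only [xi]
  linear_combination (64 : K) * h0 + (4 : K) * hb₆ + (8 * px P + 8 * px Q) * hb₄
    + (64 * px P * px Q) * hb₂

omit [CharZero K] in
theorem xi_prod (hb₂ : W.b₂ = b - 3 * s) (hb₄ : 8 * W.b₄ = 3 * s ^ 2 - 2 * s * b - d ^ 2)
    (hb₆ : 16 * W.b₆ = (s ^ 2 - d ^ 2) * (b - s)) {P Q : W.Point}
    (hP : P ≠ 0) (hQ : Q ≠ 0) (h : px P ≠ px Q) :
    (xi s (P + Q) * xi s (P - Q)) * (xi s P - xi s Q) ^ 2 =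
      (xi s P * xi s Q + d ^ 2) ^ 2 + 4 * d ^ 2 * b * (xi s P + xi s Q + b) := by
  have h0s := px_add_add_px_sub hP hQ h
  have h0p := px_add_mul_px_sub hP hQ h
  have h8 := W.b_relation
  simp only [xi]
  linear_combination (256 : K) * h0p - (64 * s) * h0s + (-64 : K) * h8
    + (-16 * px P - 16 * px Q - 4 * s - 4 * W.b₂) * hb₆
    + (-32 * px P * px Q - 8 * px P * s - 8 * px Q * s + 3 * s ^ 2 - 2 * s * b - d ^ 2
        + 8 * W.b₄) * hb₄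
    + (-64 * px P * px Q * s + 4 * s ^ 3 - 4 * s ^ 2 * b - 4 * s * d ^ 2 + 4 * d ^ 2 * b) * hb₂

omit [CharZero K] in
theorem xi_dup (hb₂ : W.b₂ = b - 3 * s) (hb₄ : 8 * W.b₄ = 3 * s ^ 2 - 2 * s * b - d ^ 2)
    (hb₆ : 16 * W.b₆ = (s ^ 2 - d ^ 2) * (b - s)) {P : W.Point}
    (hP : P ≠ 0) (h2 : P + P ≠ 0) :
    xi s (P + P) * (4 * (xi s P ^ 2 - d ^ 2) * (xi s P + b)) =
      (xi s P ^ 2 + d ^ 2) ^ 2 + 4 * d ^ 2 * b * (2 * xi s P + b) := by
  have h0 := px_add_self hP h2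
  have h8 := W.b_relation
  simp only [psi2sq, dupNum] at h0
  simp only [xi]
  linear_combination (256 : K) * h0 + (-64 : K) * h8
    + (-32 * px P - 16 * px (P + P) - 4 * W.b₂) * hb₆
    + (-32 * px P ^ 2 - 64 * px P * px (P + P) + 3 * s ^ 2 - 2 * s * b - d ^ 2 + 8 * W.b₄) * hb₄
    + (-256 * px P ^ 2 * px (P + P) + 4 * s ^ 3 - 4 * s ^ 2 * b - 4 * s * d ^ 2
        + 4 * d ^ 2 * b) * hb₂

theorem add_self_eq_zero_iff_xi (hb₂ : W.b₂ = b - 3 * s)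
    (hb₄ : 8 * W.b₄ = 3 * s ^ 2 - 2 * s * b - d ^ 2)
    (hb₆ : 16 * W.b₆ = (s ^ 2 - d ^ 2) * (b - s)) {P : W.Point} (hP : P ≠ 0) :
    P + P = 0 ↔ (xi s P ^ 2 - d ^ 2) * (xi s P + b) = 0 := by
  rw [add_self_eq_zero_iff hP, ← sixteen_psi2sq hb₂ hb₄ hb₆ P]
  constructor
  · intro h; rw [h, mul_zero]
  · intro h
    rcases mul_eq_zero.mp h with h16 | h
    · exact absurd h16 (by norm_num)
    · exact h

end S05H75
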